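import Fermat.Agent.S18.H456.ModCoord
import Fermat.Agent.S18.H936.Branch
import Fermat.Agent.S18.H504.ConstFree
import Fermat.Agent.S18.H144.ConstF

/-!
# S18 / MOD assembly (helper456): the fields `unramified` (G-BR) and `S_*` of `Alg.GoodModel`

Inputs (all on main): `H936.branch_j`, `H936.branch_t2`, `H936.branch_t3` (branch data in
`Place` language, helper936), `H504.exists_place_eq` (a nontrivial valuation ring containing the
constants is a `Place`, helper504), `H144.transcendental_jF`.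
-/

set_option autoImplicit false

noncomputable section

namespace Fermat.Agent.S18.H456

open ModularCurve AlgebraicCurve HahnSeries Fermat.Agent.S18 Fermat.Agent.S18.Mod

variable (M : ℕ) [NeZero M]

theorem jOm_eq_jF : jOm M = S24.jF M := by
  apply Subtype.ext
  show coeffEmb Qb (qExpand ℚ 1 jq) = coeffEmb Qb jq
  rw [qExpand_one_apply]

/-- Unramifiedness in valuation-subring language from unramifiedness in `Place` language. -/
theorem unramified_of_branch (x : Om M) (S : Finset (Om M))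
    (hbr : ∀ (v : Place Qb (Om M)) (c : Qb), cst M c ∉ S → 0 < v.ord (x - cst M c) →
      v.ord (x - cst M c) = 1) :
    ∀ O : ValuationSubring (Om M), (∀ a ∈ Lc M, a ∈ O) → ∀ c ∈ Lc M, c ∉ S →
      x - c ∈ O → (x - c)⁻¹ ∉ O → ∀ t ∈ O, t⁻¹ ∉ O → t * (x - c)⁻¹ ∈ O := by
  intro O hL c hc hcS hxO hxinv t ht htinv
  obtain ⟨c₀, rfl⟩ := (mem_Lc_iff M).1 hc
  have hO : O ≠ ⊤ := by
    rintro rfl
    exact hxinv (ValuationSubring.mem_top _)
  have hK : ∀ a : Qb, algebraMap Qb (Om M) a ∈ O := fun a => hL _ (cst_mem_Lc M a)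
  have : FiniteDimensional ↥(IntermediateField.adjoin Qb {S24.jF M}) (Om M) :=
    (S24.Deg457.degree_fields M).1
  obtain ⟨v, hv⟩ := H504.exists_place_eq (H144.transcendental_jF M) O hK hO
  subst hv
  have h1 : 0 ≤ v.ord (x - cst M c₀) := (S24.H504.mem_iff_ord_nonneg' v _).1 hxO
  have h2 : ¬ 0 ≤ v.ord (x - cst M c₀)⁻¹ := fun h =>
    hxinv ((S24.H504.mem_iff_ord_nonneg' v _).2 h)
  rw [Place.ord_inv] at h2
  have hpos : 0 < v.ord (x - cst M c₀) := by omega
  have hone := hbr v c₀ hcS hpos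
  have h3 : 0 ≤ v.ord t := (S24.H504.mem_iff_ord_nonneg' v _).1 ht
  have h4 : ¬ 0 ≤ v.ord t⁻¹ := fun h => htinv ((S24.H504.mem_iff_ord_nonneg' v _).2 h)
  rw [Place.ord_inv] at h4
  have ht0 : t ≠ 0 := by
    rintro rfl
    simp at h4
  have hx0 : x - cst M c₀ ≠ 0 := by
    intro h
    rw [h] at hpos
    simp at hpos
  apply (S24.H504.mem_iff_ord_nonneg' v _).2
  rw [Place.ord_mul v ht0 (inv_ne_zero hx0), Place.ord_inv, hone]
  omega

omit [NeZero M] in
theorem cst_ofNat (n : ℕ) [n.AtLeastTwo] : cst M (OfNat.ofNat n) = OfNat.ofNat n :=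
  map_ofNat _ n

/-- **G-BR** (`unramified`) for an admissible coordinate. -/
theorem field_unramified {ℓ : ℕ} {x : Om M} {S : Finset (Om M)} (hx : IsCoordinate M ℓ x S) :
    ∀ O : ValuationSubring (Om M), (∀ a ∈ Lc M, a ∈ O) → ∀ c ∈ Lc M, c ∉ S →
      x - c ∈ O → (x - c)⁻¹ ∉ O → ∀ t ∈ O, t⁻¹ ∉ O → t * (x - c)⁻¹ ∈ O := by
  apply unramified_of_branch
  intro v c hcS hv
  rcases hx with ⟨-, rfl, hS⟩ | ⟨⟨-, hrel, hS⟩ | ⟨-, hrel, hS⟩, -⟩
  · have h0 : c ≠ 0 := by
      rintro rfl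
      exact hcS ((hS _).2 (Or.inl (map_zero _)))
    have h1 : c ≠ 1728 := by
      rintro rfl
      exact hcS ((hS _).2 (Or.inr (cst_ofNat M 1728)))
    rw [jOm_eq_jF] at hv ⊢
    exact H936.branch_j M c h0 h1 v hv
  · have h0 : c ≠ 0 := by
      rintro rfl
      exact hcS ((hS _).2 (Or.inl (map_zero _)))
    have h1 : c ≠ -64 := by
      rintro rfl
      refine hcS ((hS _).2 (Or.inr ?_))
      exact (map_neg (algebraMap Qb (Om M)) 64).trans (congrArg Neg.neg (map_ofNat _ 64))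
    rw [jOm_eq_jF] at hrel
    exact H936.branch_t2 hrel v c h0 h1 hv
  · have h0 : c ≠ 0 := by
      rintro rfl
      exact hcS ((hS _).2 (Or.inl (map_zero _)))
    have h1 : c ≠ -27 := by
      rintro rfl
      refine hcS ((hS _).2 (Or.inr ?_))
      exact (map_neg (algebraMap Qb (Om M)) 27).trans (congrArg Neg.neg (map_ofNat _ 27))
    rw [jOm_eq_jF] at hrel
    exact H936.branch_t3 hrel v c h0 h1 hv

end Fermat.Agent.S18.H456
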